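import Mathlib

/-!
# Program Q (S36), leaf (AUX-NEW²), part 1 : abstract lemmas (prefix `s36e_`, Mathlib only)

* `s36e_eq_zero_of_orders` : Laurent series whose orders are pairwise incongruent modulo `q` are
  linearly independent over the series supported in `q ℤ`;
* `s36e_linearIndependent_pow` : field form for the powers `1, y, …, y^(q-1)` of an element whose
  order is prime to `q`;
* `s36e_norm_baseChange_of_li` : the norm commutes with a base change as soon as ONE family of
  `[F₁ : F]` elements of `F₁` stays linearly independent (no coprimality of degrees).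
-/

set_option autoImplicit false

noncomputable section

namespace Fermat.Agent.G

open Module

/-! ### orders of Laurent series -/

section Orders

variable {K : Type*} [Field K]

/-- the series supported in `q ℤ` -/
def S36eSupp (q : ℕ) (f : LaurentSeries K) : Prop :=
  ∀ k : ℤ, ¬ (q : ℤ) ∣ k → f.coeff k = 0

theorem s36e_order_dvd {q : ℕ} {f : LaurentSeries K} (hf : S36eSupp q f) (h0 : f ≠ 0) :
    (q : ℤ) ∣ f.order := by
  by_contra h
  exact h0 (HahnSeries.coeff_order_eq_zero.1 (hf _ h))

theorem s36e_order_eq {x : LaurentSeries K} {m : ℤ} (h1 : x.coeff m ≠ 0)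
    (h2 : ∀ k < m, x.coeff k = 0) : x.order = m := by
  have h0 : x ≠ 0 := fun h => h1 (by rw [h]; rfl)
  refine le_antisymm (HahnSeries.order_le_of_coeff_ne_zero h1) ?_
  by_contra h
  exact h0 (HahnSeries.coeff_order_eq_zero.1 (h2 _ (not_le.mp h)))

/-- Laurent series whose orders are pairwise incongruent modulo `q` are linearly independent over
the series supported in `q ℤ`. -/
theorem s36e_eq_zero_of_orders {q : ℕ} {ι : Type*} [Fintype ι]
    (x : ι → LaurentSeries K) (hx : ∀ i, x i ≠ 0)
    (hord : ∀ i i', (q : ℤ) ∣ (x i).order - (x i').order → i = i')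
    (c : ι → LaurentSeries K) (hc : ∀ i, S36eSupp q (c i))
    (hsum : ∑ i, c i * x i = 0) : ∀ i, c i = 0 := by
  classical
  by_contra hne
  rw [not_forall] at hne
  set S : Finset ι := Finset.univ.filter (fun i => c i ≠ 0) with hS
  have hSne : S.Nonempty := by
    obtain ⟨i, hi⟩ := hne
    exact ⟨i, by simp [hS, hi]⟩
  obtain ⟨i₀, hi₀S, hmin⟩ := S.exists_min_image (fun i => (c i * x i).order) hSne
  have hi₀ : c i₀ ≠ 0 := by simpa [hS] using hi₀S
  have ht₀ : c i₀ * x i₀ ≠ 0 := mul_ne_zero hi₀ (hx i₀)
  have hcoef : (∑ i, c i * x i).coeff (c i₀ * x i₀).order =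
      (c i₀ * x i₀).coeff (c i₀ * x i₀).order := by
    rw [HahnSeries.coeff_sum]
    refine Finset.sum_eq_single i₀ ?_ ?_
    · intro i _ hi
      by_cases hci : c i = 0
      · rw [hci, zero_mul]
        rfl
      · have hiS : i ∈ S := by simp [hS, hci]
        have hle := hmin i hiS
        have hne' : (c i * x i).order ≠ (c i₀ * x i₀).order := by
          intro heq
          rw [HahnSeries.order_mul hci (hx i), HahnSeries.order_mul hi₀ (hx i₀)] at heq
          apply hi
          apply hord
          obtain ⟨u, hu⟩ := s36e_order_dvd (hc i) hci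
          obtain ⟨v, hv⟩ := s36e_order_dvd (hc i₀) hi₀
          exact ⟨v - u, by linarith⟩
        exact HahnSeries.coeff_eq_zero_of_lt_order (lt_of_le_of_ne hle (Ne.symm hne'))
    · intro h
      exact absurd (Finset.mem_univ _) h
  rw [hsum] at hcoef
  exact ht₀ (HahnSeries.coeff_order_eq_zero.1 hcoef.symm)

/-- the powers `1, y, …, y^(q-1)` of a series of order prime to `q` are linearly independent over
the series supported in `q ℤ`. -/
theorem s36e_pow_eq_zero_of_order {q : ℕ} (y : LaurentSeries K) (hy : y ≠ 0)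
    (hcop : IsCoprime y.order (q : ℤ))
    (c : Fin q → LaurentSeries K) (hc : ∀ i, S36eSupp q (c i))
    (hsum : ∑ i, c i * y ^ (i : ℕ) = 0) : ∀ i, c i = 0 := by
  refine s36e_eq_zero_of_orders (fun i : Fin q => y ^ (i : ℕ)) (fun i => pow_ne_zero _ hy) ?_ c hc
    hsum
  intro i i' hdvd
  rw [HahnSeries.order_pow, HahnSeries.order_pow, nsmul_eq_mul, nsmul_eq_mul, ← sub_mul] at hdvd
  have h1 : (q : ℤ) ∣ ((i : ℕ) : ℤ) - ((i' : ℕ) : ℤ) := hcop.symm.dvd_of_dvd_mul_right hdvd
  have h2 : |((i : ℕ) : ℤ) - ((i' : ℕ) : ℤ)| < (q : ℤ) := by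
    have hi := i.2
    have hi' := i'.2
    rw [abs_lt]
    constructor <;> omega
  have h3 := Int.eq_zero_of_abs_lt_dvd h1 h2
  exact Fin.ext (by omega)

end Orders

/-! ### the field form -/

/-- `1, y, …, y^(q-1)` are linearly independent over a subfield `L` whose elements have expansions
supported in `q ℤ`, when the expansion of `y` has order prime to `q`. -/
theorem s36e_linearIndependent_pow {K L E : Type*} [Field K] [Field L] [Field E] [Algebra L E]
    (θ : E →+* LaurentSeries K) {q : ℕ}
    (hL : ∀ g : L, S36eSupp q (θ (algebraMap L E g)))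
    (y : E) (hy : y ≠ 0) (hcop : IsCoprime (θ y).order (q : ℤ)) :
    LinearIndependent L (fun i : Fin q => y ^ (i : ℕ)) := by
  rw [Fintype.linearIndependent_iff]
  intro g hsum i
  have h1 : ∑ i : Fin q, θ (algebraMap L E (g i)) * θ y ^ (i : ℕ) = 0 := by
    have := congrArg θ hsum
    rw [map_sum, map_zero] at this
    rw [← this]
    refine Finset.sum_congr rfl fun i _ => ?_
    rw [Algebra.smul_def, map_mul, map_pow]
  have h2 := s36e_pow_eq_zero_of_order (θ y) ((map_ne_zero θ).2 hy) hcop
    (fun i => θ (algebraMap L E (g i))) (fun i => hL _) h1 i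
  exact (map_eq_zero _).1 ((map_eq_zero θ).1 h2)

/-! ### the norm and a base change -/

/-- the norm computed in compatible bases -/
theorem s36e_norm_eq_of_bases {F F₁ L E : Type*} [Field F] [Field F₁] [Field L]
    [Field E] [Algebra F F₁] [Algebra F L] [Algebra F E] [Algebra F₁ E] [Algebra L E]
    [IsScalarTower F F₁ E] [IsScalarTower F L E] {ι : Type*} [Fintype ι] [DecidableEq ι]
    (b : Basis ι F F₁) (b' : Basis ι L E) (hb' : ∀ i, b' i = algebraMap F₁ E (b i)) (x : F₁) :
    Algebra.norm L (algebraMap F₁ E x) = algebraMap F L (Algebra.norm F x) := by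
  rw [Algebra.norm_eq_matrix_det b', Algebra.norm_eq_matrix_det b, RingHom.map_det]
  congr 1
  ext i k
  rw [RingHom.mapMatrix_apply, Matrix.map_apply, Algebra.leftMulMatrix_eq_repr_mul,
    Algebra.leftMulMatrix_eq_repr_mul]
  have h1 : algebraMap F₁ E x * b' k =
      ∑ j, (algebraMap F L (b.repr (x * b k) j)) • b' j := by
    rw [hb', ← map_mul]
    conv_lhs => rw [← b.sum_repr (x * b k)]
    rw [map_sum]
    refine Finset.sum_congr rfl fun j _ => ?_
    rw [hb', Algebra.smul_def, Algebra.smul_def, map_mul, ← IsScalarTower.algebraMap_apply,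
      ← IsScalarTower.algebraMap_apply]
  rw [h1, map_sum, Finsupp.coe_finsetSum, Finset.sum_apply]
  have h2 : ∀ j, (b'.repr ((algebraMap F L (b.repr (x * b k) j)) • b' j)) i =
      if j = i then algebraMap F L (b.repr (x * b k) j) else 0 := by
    intro j
    rw [map_smul, Basis.repr_self, Finsupp.smul_apply, Finsupp.single_apply, smul_eq_mul,
      mul_ite, mul_one, mul_zero]
  rw [Finset.sum_congr rfl fun j _ => h2 j, Finset.sum_ite_eq' Finset.univ i]
  simp

/-- THE NORM COMMUTES WITH A BASE CHANGE when one family of `n = [F₁ : F] = [E : L]` elements of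
`F₁` is linearly independent over `L` inside `E`. -/
theorem s36e_norm_baseChange_of_li {F F₁ L E : Type*} [Field F] [Field F₁] [Field L]
    [Field E] [Algebra F F₁] [Algebra F L] [Algebra F E] [Algebra F₁ E] [Algebra L E]
    [IsScalarTower F F₁ E] [IsScalarTower F L E] {n : ℕ} (hn : 0 < n) (b : Fin n → F₁)
    (hli : LinearIndependent L (fun i => algebraMap F₁ E (b i)))
    (h1 : finrank F F₁ = n) (h2 : finrank L E = n) (x : F₁) :
    Algebra.norm L (algebraMap F₁ E x) = algebraMap F L (Algebra.norm F x) := by
  classical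
  have hliF' : LinearIndependent F (fun i => algebraMap F₁ E (b i)) :=
    hli.restrict_scalars (by
      intro r s hrs
      have : algebraMap F L r = algebraMap F L s := by
        simpa [Algebra.smul_def] using hrs
      exact (algebraMap F L).injective this)
  have hliF : LinearIndependent F b :=
    LinearIndependent.of_comp (IsScalarTower.toAlgHom F F₁ E).toLinearMap hliF'
  have : Nonempty (Fin n) := ⟨⟨0, hn⟩⟩
  let B : Basis (Fin n) F F₁ :=
    basisOfLinearIndependentOfCardEqFinrank hliF (by rw [Fintype.card_fin, h1])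
  let B' : Basis (Fin n) L E :=
    basisOfLinearIndependentOfCardEqFinrank hli (by rw [Fintype.card_fin, h2])
  have hB : ∀ i, B i = b i := fun i => by simp [B]
  have hB' : ∀ i, B' i = algebraMap F₁ E (B i) := fun i => by simp [B', B]
  exact s36e_norm_eq_of_bases B B' hB' x

end Fermat.Agent.G
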