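import Mathlib
import Fermat.Agent.S35.Nat.PushF
import Fermat.Agent.S35.AuxNew.Incl
import Fermat.Agent.S36.AuxNew2.Abs

/-!
# Program Q (S36), leaf (AUX-NEW²), part 2 : degrees and linear independence at a level `N q`,
`q ∣ N` (prefix `s36e_`)

* `s36e_alpha_finrank_of_dvd` : `[F(N q) : α F(N)] = q` for a prime `q ∣ N`;
* `s36e_beta_finrank_eq_alpha` : `[F(N q) : β F(N)] = [F(N q) : α F(N)]` for ALL `N, q` (conjugation
  by the Fricke involutions `s35nfWBar` of both levels);
* `s36e_li_beta` : `1, j_d, …, j_d^(q-1)` are linearly independent over `β F(N)` when `d` is prime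
  to `q` (orders at the cusp `∞`);
* `s36e_li_alpha` : `1, j_e, …, j_e^(q-1)` are linearly independent over `α F(N)` when
  `N q = e d` with `d` prime to `q` (orders at the cusp `0`, i.e. after the Fricke involution).
-/

set_option autoImplicit false
set_option linter.unusedSectionVars false
set_option linter.unusedVariables false
set_option synthInstance.maxHeartbeats 400000
set_option linter.style.haveILetI false

noncomputable section

namespace Fermat.Agent.G

open ModularCurve AlgebraicCurve IntermediateField Fermat.Agent.S24 Fermat.Agent.S35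

local notation "Qb" => AlgebraicClosure ℚ

/-! ### `ψ(N q) = q ψ(N)` for `q ∣ N` -/

theorem s36e_dedekindPsi_mul_of_dvd {N q : ℕ} (hN : N ≠ 0) (hq : q.Prime) (hqN : q ∣ N) :
    dedekindPsi (N * q) = dedekindPsi N * q := by
  obtain ⟨e, m, hm, rfl⟩ := Nat.exists_eq_pow_mul_and_not_dvd hN q hq.ne_one
  have he : 0 < e := by
    rcases Nat.eq_zero_or_pos e with h | h
    · exfalso
      rw [h, pow_zero, one_mul] at hqN
      exact hm hqN
    · exact h
  have hqm : q.Coprime m := (Nat.Prime.coprime_iff_not_dvd hq).mpr hm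
  obtain ⟨e', rfl⟩ : ∃ e', e = e' + 1 := ⟨e - 1, by omega⟩
  have hcop : (q ^ (e' + 1)).Coprime m := Nat.Coprime.pow_left (e' + 1) hqm
  have hcop' : (q ^ (e' + 2)).Coprime m := Nat.Coprime.pow_left (e' + 2) hqm
  have e1 : q ^ (e' + 1) * m * q = q ^ (e' + 2) * m := by ring
  have h1 : dedekindPsi (q ^ (e' + 1)) = q ^ (e' + 1) + q ^ e' := by
    have := dedekindPsi_prime_pow hq (Nat.succ_pos e')
    simpa using this
  have h2 : dedekindPsi (q ^ (e' + 2)) = q ^ (e' + 2) + q ^ (e' + 1) := by
    have := dedekindPsi_prime_pow hq (Nat.succ_pos (e' + 1))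
    simpa using this
  rw [e1, dedekindPsi_mul hcop', dedekindPsi_mul hcop, h1, h2]
  ring

/-! ### degrees -/

section Degrees

variable (N q : ℕ) [NeZero N] [NeZero q]

/-- `[F(N q) : α F(N)] = q` for a prime `q ∣ N` -/
theorem s36e_alpha_finrank_of_dvd (hq : q.Prime) (hqN : q ∣ N) :
    finrankAlong Qb (heckeAlphaBar Qb N q) = q := by
  have h1 := s35e_incl_finrank (dvd_mul_right N q)
  rw [← s35e_alpha_eq_incl, s36e_dedekindPsi_mul_of_dvd (NeZero.ne N) hq hqN] at h1
  exact Nat.eq_of_mul_eq_mul_left (s35e_dedekindPsi_pos N) h1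

/-- `Fr_{N q} ∘ α = β ∘ Fr_N` over `ℚ̄` -/
theorem s36e_fricke_alpha (k : modularFunctionFieldBar N) :
    s35nfWBarHom (N * q) (heckeAlphaBar Qb N q k) = heckeBetaBar Qb N q (s35nfWBarHom N k) := by
  have h := s35nfWBarHom_beta N q (s35nfWBarHom N k)
  rw [s35nfWBarHom_WBarHom] at h
  rw [← h, s35nfWBarHom_WBarHom]

/-- `[F(N q) : β F(N)] = [F(N q) : α F(N)]`, all `N, q` -/
theorem s36e_beta_finrank_eq_alpha :
    finrankAlong Qb (heckeBetaBar Qb N q) = finrankAlong Qb (heckeAlphaBar Qb N q) := by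
  exact @Algebra.finrank_eq_of_equiv_equiv (modularFunctionFieldBar N)
    (modularFunctionFieldBar (N * q)) _ _ (algebraAlong (heckeBetaBar Qb N q))
    (modularFunctionFieldBar N) (modularFunctionFieldBar (N * q)) _ _
    (algebraAlong (heckeAlphaBar Qb N q)) (s35nfWBar N) (s35nfWBar (N * q))
    (RingHom.ext fun k => (s35nfWBarHom_beta N q k).symm)

/-- `[F(N q) : β F(N)] = q` for a prime `q ∣ N` -/
theorem s36e_beta_finrank_of_dvd (hq : q.Prime) (hqN : q ∣ N) :
    finrankAlong Qb (heckeBetaBar Qb N q) = q := by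
  rw [s36e_beta_finrank_eq_alpha, s36e_alpha_finrank_of_dvd N q hq hqN]

end Degrees

/-! ### the generators `j_d` -/

/-- the expansion of `j_d` has order `-d` -/
theorem s36e_order_jd (d : ℕ) [NeZero d] :
    (coeffEmb Qb (qExpand ℚ d jq)).order = -(d : ℤ) := by
  have hd : (0 : ℤ) < d := by exact_mod_cast Nat.pos_of_ne_zero (NeZero.ne d)
  refine s36e_order_eq ?_ ?_
  · rw [coeffEmb_coeff, show -(d : ℤ) = (d : ℤ) * (-1) by ring, qExpand_coeff_mul,
      coeff_jq_neg_one, map_one]
    exact one_ne_zero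
  · intro k hk
    rw [coeffEmb_coeff]
    by_cases hdk : (d : ℤ) ∣ k
    · obtain ⟨m, rfl⟩ := hdk
      rw [qExpand_coeff_mul, coeff_jq_of_lt (by nlinarith), map_zero]
    · rw [qExpand_coeff_of_not_dvd d jq hdk, map_zero]

/-- `Fr_N j_d = j_e` for `N = d e`, over `ℚ̄` -/
theorem s36e_fricke_jd (N d e : ℕ) [NeZero N] [NeZero d] [NeZero e] (h : N = d * e) :
    s35nfWBarHom N (jdBar N d ⟨e, h⟩) = jdBar N e ⟨d, by rw [h, mul_comm]⟩ := by
  subst h
  apply (gdqIota (d * e)).injective
  rw [s35nfWBarHom_spec, s35nat_iota_jdBar, s35nat_iota_jdBar]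
  exact s35nfWF_jd d e

/-! ### linear independence -/

section LI

variable (N q : ℕ) [NeZero N] [NeZero q]

/-- expansions of elements of `β F(N)` are supported in `q ℤ` -/
theorem s36e_supp_beta (g : modularFunctionFieldBar N) :
    S36eSupp q ((heckeBetaBar Qb N q g : modularFunctionFieldBar (N * q)) : LaurentSeries Qb) := by
  intro k hk
  rw [coe_heckeBetaBar]
  exact qExpand_coeff_of_not_dvd q _ hk

/-- `1, j_d, …, j_d^(q-1)` are linearly independent over `β F(N)` when `d` is prime to `q`. -/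
theorem s36e_li_beta (d : ℕ) [NeZero d] (hd : d ∣ N * q) (hdq : d.Coprime q) :
    letI := algebraAlong (heckeBetaBar Qb N q)
    LinearIndependent (modularFunctionFieldBar N)
      (fun i : Fin q => (jdBar (N * q) d hd) ^ (i : ℕ)) := by
  letI := algebraAlong (heckeBetaBar Qb N q)
  refine s36e_linearIndependent_pow (K := Qb) (modularFunctionFieldBar (N * q)).val.toRingHom
    (fun g => s36e_supp_beta N q g) (jdBar (N * q) d hd) ?_ ?_
  · intro h0
    have := congrArg (fun x : modularFunctionFieldBar (N * q) => (x : LaurentSeries Qb)) h0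
    have h1 := s36e_order_jd d
    simp only [coe_jdBar] at this
    rw [this] at h1
    have hd0 : (0 : ℤ) < d := by exact_mod_cast Nat.pos_of_ne_zero (NeZero.ne d)
    simp at h1
    omega
  · show IsCoprime ((jdBar (N * q) d hd : modularFunctionFieldBar (N * q)) :
      LaurentSeries Qb).order (q : ℤ)
    rw [coe_jdBar, s36e_order_jd d]
    exact (Nat.isCoprime_iff_coprime.2 hdq).neg_left

/-- `1, j_e, …, j_e^(q-1)` are linearly independent over `α F(N)` when `N q = e d` with `d` prime
to `q`. -/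
theorem s36e_li_alpha (e d : ℕ) [NeZero e] [NeZero d] (h : N * q = e * d) (hdq : d.Coprime q) :
    letI := algebraAlong (heckeAlphaBar Qb N q)
    LinearIndependent (modularFunctionFieldBar N)
      (fun i : Fin q => (jdBar (N * q) e ⟨d, h⟩) ^ (i : ℕ)) := by
  letI := algebraAlong (heckeAlphaBar Qb N q)
  have hd : d ∣ N * q := ⟨e, by rw [h, mul_comm]⟩
  have hfr : s35nfWBarHom (N * q) (jdBar (N * q) e ⟨d, h⟩) = jdBar (N * q) d hd :=
    s36e_fricke_jd (N * q) e d h
  refine s36e_linearIndependent_pow (K := Qb)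
    ((modularFunctionFieldBar (N * q)).val.toRingHom.comp (s35nfWBarHom (N * q)))
    (fun g => ?_) (jdBar (N * q) e ⟨d, h⟩) ?_ ?_
  · show S36eSupp q ((s35nfWBarHom (N * q) (heckeAlphaBar Qb N q g) :
      modularFunctionFieldBar (N * q)) : LaurentSeries Qb)
    rw [s36e_fricke_alpha]
    exact s36e_supp_beta N q _
  · intro h0
    rw [h0, map_zero] at hfr
    have := congrArg (fun x : modularFunctionFieldBar (N * q) => (x : LaurentSeries Qb)) hfr.symm
    have h1 := s36e_order_jd d
    simp only [coe_jdBar] at this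
    rw [this] at h1
    have hd0 : (0 : ℤ) < d := by exact_mod_cast Nat.pos_of_ne_zero (NeZero.ne d)
    simp at h1
    omega
  · show IsCoprime ((s35nfWBarHom (N * q) (jdBar (N * q) e ⟨d, h⟩) :
      modularFunctionFieldBar (N * q)) : LaurentSeries Qb).order (q : ℤ)
    rw [hfr, coe_jdBar, s36e_order_jd d]
    exact (Nat.isCoprime_iff_coprime.2 hdq).neg_left

end LI

end Fermat.Agent.G
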