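import Mathlib
import Fermat.Agent.S35.AuxNew.Main
import Fermat.Agent.S35.AsmDefs
import Fermat.Agent.S36.AuxNew2.Deg

/-!
# Program Q (S36), leaf (AUX-NEW²) : the auxiliary level preserves `q`-new classes at a level
`M q` with `q ∣ M` (prefix `s36e_`)

For `q ∣ M` the degeneracy maps `α_q, β_q : F(M) → F(M q)` have degree `q`; the auxiliary prime `a`
of Program Q has `12 ∣ a + 1`, so the degrees `q` and `a + 1` are not coprime for `q ∈ {2, 3}` and
the coprime-degree base change of `S35/AuxNew` does not apply.  Here the base change of the norms is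
proved by a valuation argument (`S36/AuxNew2/Deg.lean`) : a power basis of `F(M q)` over `β F(M)`
(resp. `α F(M)`) stays linearly independent over `β F(M a)` (resp. `α F(M a)`), for ALL primes
`q ∣ M` and all `a` prime to `q`.

* `s36e_push_pull_alpha`, `s36e_push_pull_beta` : the two push-forwards commute with the auxiliary
  pull-back `s35ePull M q a : J₀(M q) → J₀(M a q)`;
* `s36e_pull_mem_new` : the pull-back of a `q`-new class (`s35asmNewAt`) is `q`-new;
* `s36e_killBox_of_aux` : the fixed-kill box at `(M, q)` from the one at `(M a, q)`.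
-/

set_option autoImplicit false
set_option linter.unusedSectionVars false
set_option linter.unusedVariables false
set_option synthInstance.maxHeartbeats 400000
set_option linter.style.haveILetI false

noncomputable section

namespace Fermat.Agent.G

open ModularCurve AlgebraicCurve IntermediateField Fermat.Agent.S24

local notation "Qb" => AlgebraicClosure ℚ
local notation "GQ" => (AlgebraicClosure ℚ ≃ₐ[ℚ] AlgebraicClosure ℚ)

section Square

variable {N₀ N₁ N₂ N₃ : ℕ} [NeZero N₀] [NeZero N₁] [NeZero N₂] [NeZero N₃]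
  (φ₁ : modularFunctionFieldBar N₀ →ₐ[Qb] modularFunctionFieldBar N₁)
  (φ₂ : modularFunctionFieldBar N₂ →ₐ[Qb] modularFunctionFieldBar N₃)
  (ψ₀ : modularFunctionFieldBar N₀ →ₐ[Qb] modularFunctionFieldBar N₂)
  (ψ₁ : modularFunctionFieldBar N₁ →ₐ[Qb] modularFunctionFieldBar N₃)

/-- the base-change property of the norms holds when the square commutes, both vertical degrees
are `n` and one family of `n` elements of `F(N₁)` stays linearly independent over `φ₂ F(N₂)`. -/
theorem s36e_normBC_of_li (hcomm : ∀ x, ψ₁ (φ₁ x) = φ₂ (ψ₀ x)) {n : ℕ} (hn : 0 < n)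
    (b : Fin n → modularFunctionFieldBar N₁)
    (hli : letI := algebraAlong φ₂
      LinearIndependent (modularFunctionFieldBar N₂) (fun i => ψ₁ (b i)))
    (h1 : finrankAlong Qb φ₁ = n) (h2 : finrankAlong Qb φ₂ = n) : S35eNormBC φ₁ φ₂ ψ₀ ψ₁ := by
  intro f
  letI aF₁ : Algebra (modularFunctionFieldBar N₀) (modularFunctionFieldBar N₁) := algebraAlong φ₁
  letI aL : Algebra (modularFunctionFieldBar N₀) (modularFunctionFieldBar N₂) := algebraAlong ψ₀
  letI aF₁E : Algebra (modularFunctionFieldBar N₁) (modularFunctionFieldBar N₃) :=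
    algebraAlong ψ₁
  letI aLE : Algebra (modularFunctionFieldBar N₂) (modularFunctionFieldBar N₃) := algebraAlong φ₂
  letI aFE : Algebra (modularFunctionFieldBar N₀) (modularFunctionFieldBar N₃) :=
    (φ₂.toRingHom.comp ψ₀.toRingHom).toAlgebra
  haveI : IsScalarTower (modularFunctionFieldBar N₀) (modularFunctionFieldBar N₂)
      (modularFunctionFieldBar N₃) := IsScalarTower.of_algebraMap_eq (fun _ => rfl)
  haveI : IsScalarTower (modularFunctionFieldBar N₀) (modularFunctionFieldBar N₁)
      (modularFunctionFieldBar N₃) := IsScalarTower.of_algebraMap_eq (fun x => (hcomm x).symm)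
  exact s36e_norm_baseChange_of_li (F := modularFunctionFieldBar N₀)
    (F₁ := modularFunctionFieldBar N₁) (L := modularFunctionFieldBar N₂)
    (E := modularFunctionFieldBar N₃) hn b hli h1 h2 f

end Square

section Main

variable {M q a : ℕ} [NeZero M] [NeZero q] [NeZero a]

theorem s36e_incl_jdBar (d : ℕ) [NeZero d] (hd : d ∣ M * q) :
    s35eIncl (s35e_dvd M q a) (jdBar (M * q) d hd) =
      jdBar (M * a * q) d (hd.trans (s35e_dvd M q a)) :=
  Subtype.ext rfl

/-- the norms along `β_q` commute with the base change to the auxiliary level -/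
theorem s36e_normBC_beta (hq : q.Prime) (hqM : q ∣ M) :
    S35eNormBC (heckeBetaBar Qb M q) (heckeBetaBar Qb (M * a) q) (heckeAlphaBar Qb M a)
      (s35eIncl (s35e_dvd M q a)) := by
  refine s36e_normBC_of_li _ _ _ _ (s35e_comm_beta M q a) hq.pos
    (fun i : Fin q => (jdBar (M * q) 1 (one_dvd _)) ^ (i : ℕ)) ?_
    (s36e_beta_finrank_of_dvd M q hq hqM)
    (s36e_beta_finrank_of_dvd (M * a) q hq (hqM.mul_right a))
  have h := s36e_li_beta (M * a) q 1 (one_dvd _) (Nat.coprime_one_left q)
  convert h using 2 with i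
  rw [map_pow, s36e_incl_jdBar]

/-- the norms along `α_q` commute with the base change to the auxiliary level -/
theorem s36e_normBC_alpha (hq : q.Prime) (hqM : q ∣ M) (haq : a.Coprime q) :
    S35eNormBC (heckeAlphaBar Qb M q) (heckeAlphaBar Qb (M * a) q) (heckeAlphaBar Qb M a)
      (s35eIncl (s35e_dvd M q a)) := by
  haveI : NeZero (M * q) := ⟨mul_ne_zero (NeZero.ne M) (NeZero.ne q)⟩
  refine s36e_normBC_of_li _ _ _ _ (s35e_comm_alpha M q a) hq.pos
    (fun i : Fin q => (jdBar (M * q) (M * q) dvd_rfl) ^ (i : ℕ)) ?_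
    (s36e_alpha_finrank_of_dvd M q hq hqM)
    (s36e_alpha_finrank_of_dvd (M * a) q hq (hqM.mul_right a))
  have h := s36e_li_alpha (M * a) q (M * q) a (by ring) haq
  convert h using 2 with i
  rw [map_pow, s36e_incl_jdBar]

/-- BASE CHANGE FOR `α_*`, `q ∣ M`. -/
theorem s36e_push_pull_alpha (hq : q.Prime) (hqM : q ∣ M) (haq : a.Coprime q)
    (x : JZero (M * q)) :
    g37pPush (M * a) q (s35ePull M q a x) = g37pPull M a (g37pPush M q x) := by
  haveI := gff_hasPrincipalDivisors (M * a)
  haveI := gff_hasPrincipalDivisors (M * a * q)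
  exact s35e_square (heckeAlphaBar Qb M q) (heckeAlphaBar Qb (M * a) q) (heckeAlphaBar Qb M a)
    (s35eIncl (s35e_dvd M q a)) (gff_alpha_finite M q) (gff_alpha_finite (M * a) q)
    (gff_alpha_finite M a) (s35e_incl_finite _) (s36e_normBC_alpha hq hqM haq)
    (gff_alpha_integral M q)
    (gff_alpha_integral (M * a) q) (gff_alpha_integral M a) (s35e_incl_integral _)
    (g37p_alpha_normFormula M q) (g37p_alpha_normFormula (M * a) q)
    (g37p_alpha_fundamentalIdentity M a) (s35e_incl_fundamentalIdentity _) x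

/-- BASE CHANGE FOR `β_*`, `q ∣ M`. -/
theorem s36e_push_pull_beta (hq : q.Prime) (hqM : q ∣ M) (x : JZero (M * q)) :
    s35asmPushBeta (M * a) q (s35ePull M q a x) = g37pPull M a (s35asmPushBeta M q x) := by
  haveI := gff_hasPrincipalDivisors (M * a)
  haveI := gff_hasPrincipalDivisors (M * a * q)
  exact s35e_square (heckeBetaBar Qb M q) (heckeBetaBar Qb (M * a) q) (heckeAlphaBar Qb M a)
    (s35eIncl (s35e_dvd M q a)) (gff_beta_finite M q) (gff_beta_finite (M * a) q)
    (gff_alpha_finite M a) (s35e_incl_finite _) (s36e_normBC_beta hq hqM)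
    (gff_beta_integral M q)
    (gff_beta_integral (M * a) q) (gff_alpha_integral M a) (s35e_incl_integral _)
    (s35asm_beta_normFormula M q) (s35asm_beta_normFormula (M * a) q)
    (g37p_alpha_fundamentalIdentity M a) (s35e_incl_fundamentalIdentity _) x

/-- THE AUXILIARY PULL-BACK OF A `q`-NEW CLASS IS `q`-NEW, `q ∣ M`. -/
theorem s36e_pull_mem_new (hq : q.Prime) (hqM : q ∣ M) (haq : a.Coprime q) {x : JZero (M * q)}
    (hx : x ∈ s35asmNewAt M q) : s35ePull M q a x ∈ s35asmNewAt (M * a) q := by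
  rw [mem_s35asmNewAt] at hx ⊢
  rw [s36e_push_pull_alpha hq hqM haq, s36e_push_pull_beta hq hqM, hx.1, hx.2, map_zero]
  exact ⟨rfl, rfl⟩

/-- (AUX-NEW²) THE FIXED-KILL BOX AT `(M, q)` FROM THE ONE AT `(M a, q)` : if `c'` kills the
`I_A`-fixed `λ`-power torsion `q`-new classes of level `(M a) q`, then `(a + 1) c'` kills those of
level `M q`. -/
theorem s36e_killBox_of_aux (hq : q.Prime) (ha : a.Prime) (hqM : q ∣ M) (haM : ¬ a ∣ M * q)
    (lam : ℕ) (A : ValuationSubring Qb) (c' : ℕ)
    (hbig : ∀ y : JZero (M * a * q), y ∈ s35asmNewAt (M * a) q → (∃ n : ℕ, lam ^ n • y = 0) →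
      (∀ σ ∈ A.inertiaSubgroupIn ℚ, σ • y = y) → c' • y = 0)
    (x : JZero (M * q)) (hx : x ∈ s35asmNewAt M q) (hxt : ∃ n : ℕ, lam ^ n • x = 0)
    (hfix : ∀ σ ∈ A.inertiaSubgroupIn ℚ, σ • x = x) : ((a + 1) * c') • x = 0 := by
  have haq : a.Coprime q := by
    rw [Nat.Prime.coprime_iff_not_dvd ha]
    exact fun h => haM (h.mul_left M)
  have hy : c' • s35ePull M q a x = 0 := by
    refine hbig _ (s36e_pull_mem_new hq hqM haq hx) ?_ ?_
    · obtain ⟨n, hn⟩ := hxt
      exact ⟨n, by rw [← map_nsmul, hn, map_zero]⟩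
    · intro σ hσ
      rw [← s35e_pull_galois, hfix σ hσ]
  rw [← map_nsmul] at hy
  rw [mul_smul]
  exact s35e_pull_eq_zero M q a ha haM _ hy

end Main

end Fermat.Agent.G
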